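import Fermat.Agent.LT.T5.H40.HS0Core

/-!
# Row LT, tower T5, sub-leaf T5.02e `OnlyBorelC` (helper392, registry row 1190) — OFF-MAIN

`onlyBorel392 : HeightDistC K → T1.SiegelSepC K → T1.HeightC K → T1.IwasawaC K → T1.AdNormC K →
  T5.H40.OnlyBorelC K`, VERBATIM against `T5/H40/HS0Spec.lean` (sha256 `de8bb55ac72c…`) and
`T5/H40/HS0Core.lean` (sha256 `1e21981c997b…`) of helper40@08c177f1b, on `T5/Spec.lean`
`d6f8b00ae5f1…`, `T1/Spec.lean` `e8ae48d6010e…`, `T3/Spec.lean` `44de320b8621…`,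
`H556/A0.lean` `66d3374a79ca…` (byte-identical copies).

Proof.  Let `C = tsupport φ` (compact) and `D` the constant of `HeightDistC` for `C`; put
`T₁ = D / c + 1`.  If `φ(x⁻¹ γ y rᵐ) ≠ 0` then `ω = x⁻¹ γ y rᵐ ∈ C` and `x ω = rᵐ (γ y)` (the ray
generator is a scalar matrix: an adele is determined by its components).  `γ y` has a height `t'`
(`IwasawaC`), which is also a height of `rᵐ (γ y)` (`HeightC`, central invariance), so
`H(x) ≤ D t'` (`HeightDistC`), and `H(y) t' ≤ 1` (`SiegelSepC`, `γ ∉ B(K)`).  Hence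
`H(x) ≤ D t' ≤ D / c < T₁`.  The hypothesis `T1.AdNormC K` is not used.
-/

set_option autoImplicit false

open IsDedekindDomain NumberField MeasureTheory
open scoped MatrixGroups

noncomputable section

namespace Fermat.Agent.LT.T5.H392

open Fermat.Agent.LT.H556.A0 Fermat.Agent.LT.T5

variable {K : Type} [Field K] [NumberField K]

/-- Two adeles with the same components at all places are equal. -/
theorem adl_ext392 {x y : Adl K} (h1 : ∀ w : InfinitePlace K, infHom w x = infHom w y)
    (h2 : ∀ v : HeightOneSpectrum (𝓞 K), finHom v x = finHom v y) : x = y := by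
  refine Prod.ext ?_ ?_
  · funext w
    exact (InfinitePlace.Completion.extensionEmbedding w).injective (h1 w)
  · exact RestrictedProduct.ext _ _ (fun v => h2 v)

/-- The ray generator is a scalar matrix. -/
theorem ray_scalar392 {r : G K} (hr : IsRayGen r) :
    (r : Matrix (Fin 2) (Fin 2) (Adl K))
      = Matrix.diagonal (fun _ => (r : Matrix (Fin 2) (Fin 2) (Adl K)) 0 0) := by
  obtain ⟨hfin, t, -, -, hinf⟩ := hr
  have hi : ∀ (w : InfinitePlace K) (i j : Fin 2),
      infHom w ((r : Matrix (Fin 2) (Fin 2) (Adl K)) i j)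
        = (Matrix.diagonal (fun _ => (t : ℂ)) : Matrix (Fin 2) (Fin 2) ℂ) i j :=
    fun w i j => congrFun (congrFun (hinf w) i) j
  have hf : ∀ (v : HeightOneSpectrum (𝓞 K)) (i j : Fin 2),
      finHom v ((r : Matrix (Fin 2) (Fin 2) (Adl K)) i j)
        = (1 : Matrix (Fin 2) (Fin 2) (v.adicCompletion K)) i j :=
    fun v i j => congrFun (congrFun (hfin v) i) j
  ext i j
  fin_cases i <;> fin_cases j
  · simp
  · show (r : Matrix (Fin 2) (Fin 2) (Adl K)) 0 1 = _
    rw [Matrix.diagonal_apply_ne _ (by decide)]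
    apply adl_ext392
    · intro w; rw [hi w 0 1]; simp
    · intro v; rw [hf v 0 1]; simp
  · show (r : Matrix (Fin 2) (Fin 2) (Adl K)) 1 0 = _
    rw [Matrix.diagonal_apply_ne _ (by decide)]
    apply adl_ext392
    · intro w; rw [hi w 1 0]; simp
    · intro v; rw [hf v 1 0]; simp
  · show (r : Matrix (Fin 2) (Fin 2) (Adl K)) 1 1 = _
    rw [Matrix.diagonal_apply_eq]
    apply adl_ext392
    · intro w; rw [hi w 1 1, hi w 0 0]; simp
    · intro v; rw [hf v 1 1, hf v 0 0]; simp

/-- The scalar matrices, as a homomorphism from the ideles. -/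
def scal392 (K : Type) [Field K] [NumberField K] : (Adl K)ˣ →* G K :=
  Units.map ((Matrix.scalar (Fin 2)).toMonoidHom : Adl K →* Matrix (Fin 2) (Fin 2) (Adl K))

theorem scal392_coe (u : (Adl K)ˣ) :
    ((scal392 K u : G K) : Matrix (Fin 2) (Fin 2) (Adl K))
      = Matrix.diagonal (fun _ => (u : Adl K)) := rfl

theorem isCentral_scal392 (u : (Adl K)ˣ) : T1.IsCentral K (scal392 K u) :=
  ⟨(u : Adl K), scal392_coe u⟩

/-- The ray generator is the scalar matrix of an idele. -/
theorem ray_eq_scal392 {r : G K} (hr : IsRayGen r) : ∃ u : (Adl K)ˣ, r = scal392 K u := by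
  have hs := ray_scalar392 hr
  set c : Adl K := (r : Matrix (Fin 2) (Fin 2) (Adl K)) 0 0 with hc
  have hdet : c * c = ((Matrix.GeneralLinearGroup.det r : (Adl K)ˣ) : Adl K) := by
    have h : ((Matrix.GeneralLinearGroup.det r : (Adl K)ˣ) : Adl K)
        = Matrix.det (r : Matrix (Fin 2) (Fin 2) (Adl K)) := rfl
    rw [h, hs, Matrix.det_diagonal, Fin.prod_univ_two]
  have hu : IsUnit c := by
    have : IsUnit (c * c) := by rw [hdet]; exact Units.isUnit _
    exact isUnit_of_mul_isUnit_left this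
  obtain ⟨u, hu'⟩ := hu
  refine ⟨u, Units.ext ?_⟩
  rw [scal392_coe, hu']
  exact hs

/-- Every power of the ray generator is central. -/
theorem isCentral_zpow392 {r : G K} (hr : IsRayGen r) (m : ℤ) : T1.IsCentral K (r ^ m) := by
  obtain ⟨u, rfl⟩ := ray_eq_scal392 hr
  rw [← map_zpow]
  exact isCentral_scal392 _

/-- Central elements commute with everything. -/
theorem central_comm392 {z : G K} (hz : T1.IsCentral K z) (g : G K) : z * g = g * z := by
  obtain ⟨c, hc⟩ := hz
  apply Units.ext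
  show (z : Matrix (Fin 2) (Fin 2) (Adl K)) * (g : Matrix (Fin 2) (Fin 2) (Adl K))
      = (g : Matrix (Fin 2) (Fin 2) (Adl K)) * (z : Matrix (Fin 2) (Fin 2) (Adl K))
  rw [hc]
  ext i j
  fin_cases i <;> fin_cases j <;> simp [Matrix.mul_apply, Fin.sum_univ_two, mul_comm]

/-- **T5.02e `OnlyBorelC`** from the height distortion under a compact set and the separation
property of Siegel sets. -/
theorem onlyBorel392 (K : Type) [Field K] [NumberField K]
    (hD : H40.HeightDistC K) (hS : T1.SiegelSepC K) (hH : T1.HeightC K) (hI : T1.IwasawaC K)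
    (_hN : T1.AdNormC K) : H40.OnlyBorelC K := by
  intro r hr φ _hφc hφs c hc
  obtain ⟨D, hD0, hDist⟩ := hD (tsupport φ) hφs
  refine ⟨D / c + 1, ?_⟩
  intro x y tx ty hx hy hT hcy γ hγ
  have key : ∀ m : ℤ, φ (x⁻¹ * ratG γ * y * r ^ m) = 0 := by
    intro m
    by_contra hne
    have hω : x⁻¹ * ratG γ * y * r ^ m ∈ tsupport φ := subset_tsupport φ hne
    obtain ⟨b, k, hb, hk, hbk⟩ := hI (T1.ratG K γ * y)
    have h1 : T1.HasHeight K (T1.ratG K γ * y)
        (T1.adNorm K ((b : Matrix (Fin 2) (Fin 2) (Adl K)) 0 0) /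
          T1.adNorm K ((b : Matrix (Fin 2) (Fin 2) (Adl K)) 1 1)) :=
      ⟨b, k, hb, hk, hbk, rfl⟩
    generalize T1.adNorm K ((b : Matrix (Fin 2) (Fin 2) (Adl K)) 0 0) /
      T1.adNorm K ((b : Matrix (Fin 2) (Fin 2) (Adl K)) 1 1) = t' at h1
    have h2 : T1.HasHeight K (r ^ m * (T1.ratG K γ * y)) t' :=
      hH.2.2.1 _ (isCentral_zpow392 hr m) _ _ h1
    have h3 : x * (x⁻¹ * ratG γ * y * r ^ m) = r ^ m * (T1.ratG K γ * y) := by
      rw [central_comm392 (isCentral_zpow392 hr m) (T1.ratG K γ * y)]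
      show x * (x⁻¹ * T1.ratG K γ * y * r ^ m) = T1.ratG K γ * y * r ^ m
      simp only [mul_assoc, mul_inv_cancel_left]
    have h4 : tx ≤ D * t' := hDist x _ tx t' hω hx (h3 ▸ h2)
    have h5 : ty * t' ≤ 1 := hS γ hγ y ty t' hy h1
    have hDc : 0 < D / c := div_pos hD0 hc
    have htx : 0 < tx := by linarith
    have ht'pos : 0 < t' := by
      by_contra h
      have h' : t' ≤ 0 := not_lt.mp h
      have : D * t' ≤ 0 := mul_nonpos_of_nonneg_of_nonpos hD0.le h'
      linarith
    have h6 : c * t' ≤ 1 := le_trans (mul_le_mul_of_nonneg_right hcy ht'pos.le) h5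
    have h7 : t' ≤ 1 / c := by
      rw [le_div_iff₀ hc]
      linarith [mul_comm c t']
    have h8 : D * t' ≤ D / c := by
      calc D * t' ≤ D * (1 / c) := mul_le_mul_of_nonneg_left h7 hD0.le
        _ = D / c := by ring
    linarith
  show (∑' m : ℤ, φ (x⁻¹ * ratG γ * y * r ^ m)) = 0
  simp only [key, tsum_zero]

end Fermat.Agent.LT.T5.H392

end
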